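import Mathlib
import Fermat.Agent.GR.G.Defs
import Fermat.Agent.S14.CZ.Unfold

/-!
# S48 / Cheb : Chebotarev's density theorem over `ℚ` (lower Dirichlet density, symmetrised under inversion) -- definitions

Everything is a sum over rational primes, in the style of `GR/G`.
-/

set_option autoImplicit false

open NumberField IsDedekindDomain
open scoped nonZeroDivisors Pointwise

namespace Fermat.Agent.S48.Cheb

open Fermat.Agent.GR.G Fermat.Agent.S14.CZ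

section analytic

variable (K : Type*) [Field K] [NumberField K]

/-- `∑_{p ∉ R} w(p) #{𝔮 : N𝔮 = p} p^{-s}`: weighted sum over the primes of degree one of `K`. -/
noncomputable def wSum (R : Finset ℕ) (s : ℝ) (w : ℕ → ℝ) : ℝ :=
  ∑' p : ℕ, w p * degOneTerm K R s p

variable {m : ℕ} (χ : DirichletCharacter ℂ m)

/-- the weight `p ↦ Re χ(p)`. -/
noncomputable def reChi (p : ℕ) : ℝ := (χ (p : ZMod m)).re

/-- `χ(N I)`. -/
noncomputable def chiN (I : Ideal (𝓞 K)) : ℂ := χ ((Ideal.absNorm I : ℕ) : ZMod m)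

/-- the general term `χ(N I) N I ^ (-s)` of `L_K(s, χ ∘ N)`. -/
noncomputable def LTerm (s : ℝ) (I : (Ideal (𝓞 K))⁰) : ℂ :=
  chiN K χ (I : Ideal (𝓞 K)) * (((Ideal.absNorm (I : Ideal (𝓞 K)) : ℝ) ^ (-s) : ℝ) : ℂ)

/-- `L_K(s, χ ∘ N) = ∑_I χ(N I) N I ^ (-s)`. -/
noncomputable def LK (s : ℝ) : ℂ := ∑' I : (Ideal (𝓞 K))⁰, LTerm K χ s I

/-- the part of `L_K(s, χ ∘ N)` in an ideal class. -/
noncomputable def LC (C : ClassGroup (𝓞 K)) (s : ℝ) : ℂ :=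
  ∑' I : {I : (Ideal (𝓞 K))⁰ // ClassGroup.mk0 I = C}, LTerm K χ s I.1

/-- `∑_v χ(N v) N v ^ (-s)` over all nonzero primes. -/
noncomputable def PK (s : ℝ) : ℂ :=
  ∑' v : HeightOneSpectrum (𝓞 K),
    chiN K χ v.asIdeal * (((Ideal.absNorm v.asIdeal : ℝ) ^ (-s) : ℝ) : ℂ)

/-- `θ(b) = χ(N_{K/ℚ} b mod m)` (signed norm). -/
noncomputable def theta (b : 𝓞 K) : ℂ := χ ((Algebra.norm ℤ b : ℤ) : ZMod m)

/-- the smoothed twisted lattice sum `∑_{b ∈ J} g(s, b) θ(b)`. -/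
noncomputable def XJ (J : Ideal (𝓞 K)) (s : ℝ) : ℂ :=
  ∑' b : J, ((gK K s (b : 𝓞 K) : ℝ) : ℂ) * theta K χ (b : 𝓞 K)

end analytic

open Classical in
/-- `1[p = τ] + 1[p = -τ] + 1[p = τ⁻¹] + 1[p = -τ⁻¹]` (in `ZMod m`). -/
noncomputable def ind {m : ℕ} (τ : (ZMod m)ˣ) (p : ℕ) : ℝ :=
  (if (p : ZMod m) = (τ : ZMod m) then 1 else 0) + (if (p : ZMod m) = -(τ : ZMod m) then 1 else 0) +
  (if (p : ZMod m) = ((τ⁻¹ : (ZMod m)ˣ) : ZMod m) then 1 else 0) +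
  (if (p : ZMod m) = -((τ⁻¹ : (ZMod m)ˣ) : ZMod m) then 1 else 0)

open Classical in
/-- `1[p = 1] + 1[p = -1]` (in `ZMod m`). -/
noncomputable def indPM (m : ℕ) (p : ℕ) : ℝ :=
  (if (p : ZMod m) = 1 then 1 else 0) + (if (p : ZMod m) = -1 then 1 else 0)

/-- the classes `τ` whose order in `(ℤ/m)ˣ/{±1}` is divisible by `n`. -/
def goodTau (m n : ℕ) : Set (ZMod m)ˣ :=
  {τ | ∀ j : ℕ, (τ ^ j = 1 ∨ τ ^ j = -1) → n ∣ j}

section arith

variable (L : Type*) [Field L] [NumberField L]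

/-- `φ` is an arithmetic Frobenius at the prime `P` above `p`. -/
def IsFrob (P : Ideal (𝓞 L)) (p : ℕ) (φ : L ≃ₐ[ℚ] L) : Prop :=
  ∀ x : 𝓞 L, φ • x - x ^ p ∈ P

/-- `R` contains all primes which ramify in `L` or divide `m`. -/
def GoodR (m : ℕ) (R : Finset ℕ) : Prop :=
  ∀ p : ℕ, p.Prime → p ∉ R → ¬ (p : ℤ) ∣ NumberField.discr L ∧ ¬ p ∣ m

open Classical in
/-- general term of the sum over the primes `p ∉ S` having a Frobenius in `D`. -/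
noncomputable def frobTerm (S : Finset ℕ) (D : Set (L ≃ₐ[ℚ] L)) (s : ℝ) (p : ℕ) : ℝ :=
  if p.Prime ∧ p ∉ S ∧ ∃ (P : Ideal (𝓞 L)) (φ : L ≃ₐ[ℚ] L),
      P.IsPrime ∧ (p : 𝓞 L) ∈ P ∧ IsFrob L P p φ ∧ φ ∈ D then (p : ℝ) ^ (-s) else 0

end arith

end Fermat.Agent.S48.Cheb
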