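import Mathlib
import Fermat.Agent.S48.Cheb.Defs

/-!
# S48 / Cheb : almost all classes mod a prime `m ≡ 1 mod 2 n^k` have order divisible by `n` modulo `± 1`
-/

set_option autoImplicit false

namespace Fermat.Agent.S48.Cheb

/-- elementary: `o ∣ M`, `n ^ k ∣ M`, `¬ n ∣ o` : some prime `ℓ ∣ n` has `o ∣ M / ℓ ^ k`. -/
theorem exists_prime_dvd_div_pow (M n k o : ℕ) (hM : 0 < M) (ho : o ∣ M) (hn : n ^ k ∣ M)
    (hno : ¬ n ∣ o) : ∃ ℓ : ℕ, ℓ.Prime ∧ ℓ ∣ n ∧ ℓ ^ k ∣ M ∧ o ∣ M / ℓ ^ k := by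
  rcases Nat.eq_zero_or_pos n with rfl | hn0
  · have hk : k = 0 := by
      by_contra hk
      rw [zero_pow hk] at hn
      exact hM.ne' (Nat.eq_zero_of_zero_dvd hn)
    subst hk
    exact ⟨2, Nat.prime_two, dvd_zero 2, by simp, by simpa using ho⟩
  · have ho0 : o ≠ 0 := by
      rintro rfl
      exact hM.ne' (Nat.eq_zero_of_zero_dvd ho)
    have hex : ∃ ℓ : ℕ, ℓ.Prime ∧ o.factorization ℓ < n.factorization ℓ := by
      by_contra hcon
      push Not at hcon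
      exact hno ((Nat.factorization_prime_le_iff_dvd hn0.ne' ho0).1 hcon)
    obtain ⟨ℓ, hℓ, hlt⟩ := hex
    have hℓn : ℓ ∣ n := Nat.dvd_of_factorization_pos (by omega)
    have hℓM : ℓ ^ k ∣ M := (pow_dvd_pow_of_dvd hℓn k).trans hn
    refine ⟨ℓ, hℓ, hℓn, hℓM, Nat.dvd_div_of_mul_dvd ?_⟩
    have hpk : ℓ ^ k ≠ 0 := pow_ne_zero k hℓ.ne_zero
    refine (Nat.factorization_prime_le_iff_dvd (mul_ne_zero hpk ho0) hM.ne').1 fun q hq => ?_
    rw [Nat.factorization_mul hpk ho0, hℓ.factorization_pow, Finsupp.add_apply]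
    have h1 : o.factorization q ≤ M.factorization q :=
      (Nat.factorization_prime_le_iff_dvd ho0 hM.ne').2 ho q hq
    by_cases hqℓ : q = ℓ
    · subst hqℓ
      rw [Finsupp.single_eq_same]
      have h2 : (n ^ k).factorization q ≤ M.factorization q :=
        (Nat.factorization_prime_le_iff_dvd (pow_ne_zero k hn0.ne') hM.ne').2 hn q hq
      rw [Nat.factorization_pow, Finsupp.smul_apply, smul_eq_mul] at h2
      rcases Nat.eq_zero_or_pos k with rfl | hk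
      · simpa using h1
      · have h3 : k * (o.factorization q + 1) ≤ k * n.factorization q := Nat.mul_le_mul_left k hlt
        have h4 : o.factorization q ≤ k * o.factorization q := Nat.le_mul_of_pos_left _ hk
        nlinarith
    · rw [Finsupp.single_eq_of_ne hqℓ, zero_add]
      exact h1

/-- a bad class is killed by `(m - 1) / ℓ ^ k` for some prime `ℓ ∣ n`. -/
theorem exists_pow_eq_one_of_not_mem_goodTau (m : ℕ) [Fact m.Prime] (n k : ℕ)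
    (hmk : 2 * n ^ k ∣ m - 1) (τ : (ZMod m)ˣ) (hτ : τ ∉ goodTau m n) :
    ∃ ℓ : ℕ, ℓ.Prime ∧ ℓ ∣ n ∧ ℓ ^ k ∣ m - 1 ∧ τ ^ ((m - 1) / ℓ ^ k) = 1 := by
  have hm : m.Prime := Fact.out
  obtain ⟨j, hj, hnj⟩ : ∃ j : ℕ, (τ ^ j = 1 ∨ τ ^ j = -1) ∧ ¬ n ∣ j := by
    by_contra hcon
    push Not at hcon
    exact hτ hcon
  obtain ⟨M, hM⟩ : 2 ∣ m - 1 := (Dvd.intro _ rfl).trans hmk
  have hMpos : 0 < M := by
    have := hm.two_le
    omega
  have ho1 : orderOf (τ ^ 2) ∣ M := by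
    apply orderOf_dvd_of_pow_eq_one
    rw [← pow_mul, ← hM]
    exact ZMod.units_pow_card_sub_one_eq_one m τ
  have ho2 : orderOf (τ ^ 2) ∣ j := by
    apply orderOf_dvd_of_pow_eq_one
    rw [← pow_mul, mul_comm, pow_mul]
    rcases hj with h | h
    · rw [h, one_pow]
    · rw [h, neg_one_sq]
  have hno : ¬ n ∣ orderOf (τ ^ 2) := fun h => hnj (h.trans ho2)
  have hnk : n ^ k ∣ M := by
    rw [hM] at hmk
    exact Nat.dvd_of_mul_dvd_mul_left two_pos hmk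
  obtain ⟨ℓ, hℓ, hℓn, hℓM, hdiv⟩ := exists_prime_dvd_div_pow M n k _ hMpos ho1 hnk hno
  refine ⟨ℓ, hℓ, hℓn, ?_, ?_⟩
  · rw [hM]
    exact Dvd.dvd.mul_left hℓM 2
  · rw [hM, Nat.mul_div_assoc 2 hℓM, pow_mul]
    exact orderOf_dvd_iff_pow_eq_one.1 hdiv

/-- **(Count)** -/
theorem le_card_goodTau (m : ℕ) [Fact m.Prime] (n k : ℕ) (hn : 0 < n)
    (hmk : 2 * n ^ k ∣ m - 1) :
    ((m - 1 : ℕ) : ℝ) * (1 - (n : ℝ) / 2 ^ k) ≤ (Nat.card (goodTau m n) : ℝ) := by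
  classical
  have hm : m.Prime := Fact.out
  have hm1 : 0 < m - 1 := by
    have := hm.two_le
    omega
  have hcard : Nat.card (goodTau m n) =
      (Finset.univ.filter fun τ : (ZMod m)ˣ => τ ∈ goodTau m n).card := by
    rw [Nat.card_eq_fintype_card]
    exact Fintype.card_subtype _
  have hsplit := Finset.card_filter_add_card_filter_not
    (s := (Finset.univ : Finset (ZMod m)ˣ)) (fun τ : (ZMod m)ˣ => τ ∈ goodTau m n)
  rw [Finset.card_univ, ZMod.card_units] at hsplit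
  have hsub : (Finset.univ.filter fun τ : (ZMod m)ˣ => ¬ τ ∈ goodTau m n) ⊆
      n.primeFactors.biUnion fun ℓ =>
        Finset.univ.filter fun τ : (ZMod m)ˣ => τ ^ ((m - 1) / ℓ ^ k) = 1 := by
    intro τ hτ
    obtain ⟨ℓ, hℓ, hℓn, -, hpow⟩ := exists_pow_eq_one_of_not_mem_goodTau m n k hmk τ
      (Finset.mem_filter.1 hτ).2
    exact Finset.mem_biUnion.2 ⟨ℓ, Nat.mem_primeFactors.2 ⟨hℓ, hℓn, hn.ne'⟩,
      Finset.mem_filter.2 ⟨Finset.mem_univ _, hpow⟩⟩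
  have hone : ∀ ℓ ∈ n.primeFactors,
      (((Finset.univ.filter fun τ : (ZMod m)ˣ => τ ^ ((m - 1) / ℓ ^ k) = 1).card : ℕ) : ℝ) ≤
        ((m - 1 : ℕ) : ℝ) / 2 ^ k := by
    intro ℓ hℓ
    have hℓp : ℓ.Prime := Nat.prime_of_mem_primeFactors hℓ
    have hℓn : ℓ ∣ n := Nat.dvd_of_mem_primeFactors hℓ
    have hdvd : ℓ ^ k ∣ m - 1 :=
      ((pow_dvd_pow_of_dvd hℓn k).trans (Dvd.intro_left 2 rfl)).trans hmk
    have hpos : 0 < (m - 1) / ℓ ^ k :=
      Nat.div_pos (Nat.le_of_dvd hm1 hdvd) (pow_pos hℓp.pos k)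
    have h1 := IsCyclic.card_pow_eq_one_le (α := (ZMod m)ˣ) hpos
    have h2 : ((((m - 1) / ℓ ^ k : ℕ)) : ℝ) ≤ ((m - 1 : ℕ) : ℝ) / ((ℓ ^ k : ℕ) : ℝ) :=
      Nat.cast_div_le
    have h3 : ((m - 1 : ℕ) : ℝ) / ((ℓ ^ k : ℕ) : ℝ) ≤ ((m - 1 : ℕ) : ℝ) / 2 ^ k := by
      apply div_le_div_of_nonneg_left (Nat.cast_nonneg _) (by positivity)
      push_cast
      exact pow_le_pow_left₀ (by norm_num) (by exact_mod_cast hℓp.two_le) k
    exact ((Nat.cast_le.2 h1).trans h2).trans h3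
  have hpf : n.primeFactors.card ≤ n := by
    have hsub' : n.primeFactors ⊆ Finset.Icc 1 n := fun q hq =>
      Finset.mem_Icc.2 ⟨Nat.pos_of_mem_primeFactors hq, Nat.le_of_mem_primeFactors hq⟩
    simpa using Finset.card_le_card hsub'
  have hbad : (((Finset.univ.filter fun τ : (ZMod m)ˣ => ¬ τ ∈ goodTau m n).card : ℕ) : ℝ) ≤
      (n : ℝ) * (((m - 1 : ℕ) : ℝ) / 2 ^ k) := by
    have h1 := (Finset.card_le_card hsub).trans Finset.card_biUnion_le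
    have h2 : (((Finset.univ.filter fun τ : (ZMod m)ˣ => ¬ τ ∈ goodTau m n).card : ℕ) : ℝ) ≤
        ∑ ℓ ∈ n.primeFactors,
          (((Finset.univ.filter fun τ : (ZMod m)ˣ => τ ^ ((m - 1) / ℓ ^ k) = 1).card : ℕ) : ℝ) := by
      exact_mod_cast h1
    refine h2.trans ((Finset.sum_le_card_nsmul _ _ _ hone).trans ?_)
    rw [nsmul_eq_mul]
    exact mul_le_mul_of_nonneg_right (by exact_mod_cast hpf) (by positivity)
  have hsplit' : (((Finset.univ.filter fun τ : (ZMod m)ˣ => τ ∈ goodTau m n).card : ℕ) : ℝ) +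
      (((Finset.univ.filter fun τ : (ZMod m)ˣ => ¬ τ ∈ goodTau m n).card : ℕ) : ℝ) =
      ((m - 1 : ℕ) : ℝ) := by
    exact_mod_cast hsplit
  rw [hcard]
  have e : ((m - 1 : ℕ) : ℝ) * (1 - (n : ℝ) / 2 ^ k) =
      ((m - 1 : ℕ) : ℝ) - (n : ℝ) * (((m - 1 : ℕ) : ℝ) / 2 ^ k) := by ring
  rw [e]
  linarith

end Fermat.Agent.S48.Cheb
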