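import Mathlib
import Fermat.Agent.GR.G.Degree
import Fermat.Agent.S48.Cheb.Twist.Theta

/-!
# S48 / Cheb : (U3) `Re P_K(s, χ) = wSum K R s (Re χ) + O(1)` (only the primes of degree one outside `R` matter)
-/

set_option autoImplicit false

open NumberField IsDedekindDomain
open scoped nonZeroDivisors

namespace Fermat.Agent.S48.Cheb

open Fermat.Agent.GR.G Fermat.Agent.S14.CZ

variable (K : Type*) [Field K] [NumberField K] {m : ℕ} (χ : DirichletCharacter ℂ m)

theorem Degree_reChi_eq (v : HeightOneSpectrum (𝓞 K)) :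
    reChi χ (Ideal.absNorm v.asIdeal) = (chiN K χ v.asIdeal).re := rfl

theorem Degree_abs_reChi_le (n : ℕ) : |reChi χ n| ≤ 1 :=
  (Complex.abs_re_le_norm _).trans (DirichletCharacter.norm_le_one χ _)

theorem Degree_summable_PK {s : ℝ} (hs : 1 < s) :
    Summable fun v : HeightOneSpectrum (𝓞 K) =>
      chiN K χ v.asIdeal * (((Ideal.absNorm v.asIdeal : ℝ) ^ (-s) : ℝ) : ℂ) := by
  refine Summable.of_norm_bounded (degree_summable K hs) fun v => ?_
  rw [norm_mul, Complex.norm_real, Real.norm_of_nonneg (Real.rpow_nonneg (Nat.cast_nonneg _) _)]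
  exact mul_le_of_le_one_left (Real.rpow_nonneg (Nat.cast_nonneg _) _) (norm_chiN_le_one K χ _)

theorem Degree_re_PK {s : ℝ} (hs : 1 < s) :
    (PK K χ s).re = ∑' v : HeightOneSpectrum (𝓞 K),
      reChi χ (Ideal.absNorm v.asIdeal) * (Ideal.absNorm v.asIdeal : ℝ) ^ (-s) := by
  unfold PK
  rw [Complex.re_tsum (Degree_summable_PK K χ hs)]
  refine tsum_congr fun v => ?_
  rw [Complex.re_mul_ofReal, Degree_reChi_eq]

theorem Degree_summable_one {s : ℝ} (hs : 1 < s) :
    Summable fun v : HeightOneSpectrum (𝓞 K) =>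
      reChi χ (Ideal.absNorm v.asIdeal) * (Ideal.absNorm v.asIdeal : ℝ) ^ (-s) := by
  refine Summable.of_norm_bounded (degree_summable K hs) fun v => ?_
  rw [Real.norm_eq_abs, abs_mul, abs_of_nonneg (Real.rpow_nonneg (Nat.cast_nonneg _) _)]
  exact mul_le_of_le_one_left (Real.rpow_nonneg (Nat.cast_nonneg _) _) (Degree_abs_reChi_le χ _)

theorem Degree_summable_G (R : Finset ℕ) {s : ℝ} (hs : 1 < s) :
    Summable fun v : HeightOneSpectrum (𝓞 K) =>
      reChi χ (Ideal.absNorm v.asIdeal) * degree_G R s (Ideal.absNorm v.asIdeal) := by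
  refine Summable.of_norm_bounded (degree_summable_G K R hs) fun v => ?_
  rw [Real.norm_eq_abs, abs_mul, abs_of_nonneg (degree_G_nonneg R s _)]
  exact mul_le_of_le_one_left (degree_G_nonneg R s _) (Degree_abs_reChi_le χ _)

theorem Degree_tsum_fib (R : Finset ℕ) (s : ℝ) (n : ℕ) :
    ∑' v : degree_fib K n,
      reChi χ (Ideal.absNorm v.1.asIdeal) * degree_G R s (Ideal.absNorm v.1.asIdeal) =
      reChi χ n * degOneTerm K R s n := by
  have h1 : ∀ v : degree_fib K n,
      reChi χ (Ideal.absNorm v.1.asIdeal) * degree_G R s (Ideal.absNorm v.1.asIdeal) =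
        reChi χ n * degree_G R s (Ideal.absNorm v.1.asIdeal) := fun v => by rw [v.2]
  rw [tsum_congr h1, tsum_mul_left, degree_tsum_fib]

theorem Degree_wSum_eq (R : Finset ℕ) {s : ℝ} (hs : 1 < s) :
    wSum K R s (reChi χ) = ∑' v : HeightOneSpectrum (𝓞 K),
      reChi χ (Ideal.absNorm v.asIdeal) * degree_G R s (Ideal.absNorm v.asIdeal) := by
  unfold wSum
  have hsig : Summable fun x : (Σ n : ℕ, degree_fib K n) =>
      reChi χ (Ideal.absNorm x.2.1.asIdeal) * degree_G R s (Ideal.absNorm x.2.1.asIdeal) := by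
    have h := Degree_summable_G K χ R hs
    rw [← (Equiv.sigmaFiberEquiv
      (fun v : HeightOneSpectrum (𝓞 K) => Ideal.absNorm v.asIdeal)).summable_iff] at h
    exact h
  rw [← (Equiv.sigmaFiberEquiv
    (fun v : HeightOneSpectrum (𝓞 K) => Ideal.absNorm v.asIdeal)).tsum_eq]
  have h := hsig.tsum_sigma' (fun n => Summable.of_finite)
  symm
  refine h.trans ?_
  simp only [Degree_tsum_fib]

/-- **(U3)** -/
theorem exists_abs_re_PK_sub_wSum_le (R : Finset ℕ) :
    ∃ C : ℝ, ∀ s : ℝ, 1 < s → |(PK K χ s).re - wSum K R s (reChi χ)| ≤ C := by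
  obtain ⟨C, hC⟩ := exists_abs_primeZeta_sub_degOneSum_le K R
  refine ⟨C, fun s hs => ?_⟩
  refine le_trans ?_ ((le_abs_self _).trans (hC s hs))
  rw [Degree_re_PK K χ hs, Degree_wSum_eq K χ R hs, ← degree_tsum_G K R hs]
  unfold primeZeta
  rw [← (Degree_summable_one K χ hs).tsum_sub (Degree_summable_G K χ R hs),
    ← (degree_summable K hs).tsum_sub (degree_summable_G K R hs), ← Real.norm_eq_abs]
  have hnn : ∀ v : HeightOneSpectrum (𝓞 K),
      0 ≤ (Ideal.absNorm v.asIdeal : ℝ) ^ (-s) - degree_G R s (Ideal.absNorm v.asIdeal) :=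
    fun v => sub_nonneg.mpr (degree_G_le R s _)
  have hsum := (degree_summable K hs).sub (degree_summable_G K R hs)
  refine tsum_of_norm_bounded hsum.hasSum fun v => ?_
  rw [← mul_sub, Real.norm_eq_abs, abs_mul, abs_of_nonneg (hnn v)]
  exact mul_le_of_le_one_left (hnn v) (Degree_abs_reChi_le χ _)

end Fermat.Agent.S48.Cheb
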