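import Mathlib
import Fermat.Agent.S48.Cheb.Twist.Bound
import Fermat.Agent.S48.Cheb.Euler.Lower
import Fermat.Agent.S48.Cheb.Degree

/-!
# S48 / Cheb : (A1') upper bound for `∑_p Re χ(p) cnt K p p^{-s}`
-/

set_option autoImplicit false

open NumberField

namespace Fermat.Agent.S48.Cheb

variable (K : Type*) [Field K] [NumberField K] {m : ℕ} (χ : DirichletCharacter ℂ m)

/-- **(A1')** -/
theorem exists_wSum_reChi_le (hm : m ≠ 0) (hχ : χ.Even) (𝔟 : Ideal (𝓞 K))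
    (hcop : (Ideal.absNorm 𝔟).Coprime m) (hξ : chiN K χ 𝔟 ≠ 1) (R : Finset ℕ) :
    ∃ B : ℝ, ∀ s : ℝ, 1 < s → s ≤ 2 → wSum K R s (reChi χ) ≤ B := by
  obtain ⟨B₁, h₁⟩ := exists_norm_LK_le K χ hm hχ 𝔟 hcop hξ
  obtain ⟨C₂, h₂⟩ := exists_exp_le_norm_LK K χ
  obtain ⟨C₃, h₃⟩ := exists_abs_re_PK_sub_wSum_le K χ R
  refine ⟨Real.log (max B₁ 1) + C₂ + C₃, fun s hs hs2 => ?_⟩
  have e1 : Real.exp ((PK K χ s).re - C₂) ≤ max B₁ 1 :=
    ((h₂ s hs).trans (h₁ s hs hs2)).trans (le_max_left _ _)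
  have e2 : (PK K χ s).re - C₂ ≤ Real.log (max B₁ 1) := by
    rw [← Real.log_exp ((PK K χ s).re - C₂)]
    exact Real.log_le_log (Real.exp_pos _) e1
  have e3 := (abs_le.mp (h₃ s hs)).1
  linarith

end Fermat.Agent.S48.Cheb
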