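import Mathlib
import Fermat.Agent.S48.Cheb.Defs
import Fermat.Agent.GR.G.Analytic

/-!
# S48 / Cheb : elementary API for the weighted sums `wSum`
-/

set_option autoImplicit false

open NumberField

namespace Fermat.Agent.S48.Cheb

open Fermat.Agent.GR.G

variable (K : Type*) [Field K] [NumberField K]

theorem degOneTerm_nonneg (R : Finset ℕ) (s : ℝ) (p : ℕ) : 0 ≤ degOneTerm K R s p := by
  unfold degOneTerm
  split_ifs
  · positivity
  · exact le_rfl

theorem summable_wSum (R : Finset ℕ) {s : ℝ} (hs : 1 < s) (w : ℕ → ℝ) (M : ℝ)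
    (hw : ∀ p, |w p| ≤ M) : Summable fun p : ℕ => w p * degOneTerm K R s p := by
  refine Summable.of_norm_bounded ((summable_degOneTerm K R hs).mul_left M) (fun p => ?_)
  rw [Real.norm_eq_abs, abs_mul, abs_of_nonneg (degOneTerm_nonneg K R s p)]
  exact mul_le_mul_of_nonneg_right (hw p) (degOneTerm_nonneg K R s p)

theorem wSum_one (R : Finset ℕ) (s : ℝ) : wSum K R s (fun _ => 1) = degOneSum K R s := by
  unfold wSum degOneSum
  simp only [one_mul]

/-- linearity for finite linear combinations of bounded weights -/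
theorem wSum_sum {ι : Type*} (T : Finset ι) (c : ι → ℝ) (w : ι → ℕ → ℝ) (M : ℝ)
    (hw : ∀ i ∈ T, ∀ p, |w i p| ≤ M) (R : Finset ℕ) {s : ℝ} (hs : 1 < s) :
    wSum K R s (fun p => ∑ i ∈ T, c i * w i p) = ∑ i ∈ T, c i * wSum K R s (w i) := by
  unfold wSum
  simp_rw [← tsum_mul_left, Finset.sum_mul, mul_assoc]
  exact Summable.tsum_finsetSum
    (fun i hi => (summable_wSum K R hs (w i) M (hw i hi)).mul_left (c i))

/-- comparison of two weighted sums, possibly for two different fields, from a pointwise identity at the primes outside `R` -/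
theorem wSum_congr (K' : Type*) [Field K'] [NumberField K'] (R : Finset ℕ) (s : ℝ) (c c' : ℝ)
    (w w' : ℕ → ℝ)
    (h : ∀ p : ℕ, p.Prime → p ∉ R → c * (w p * (cnt K p : ℝ)) = c' * (w' p * (cnt K' p : ℝ))) :
    c * wSum K R s w = c' * wSum K' R s w' := by
  unfold wSum
  rw [← tsum_mul_left, ← tsum_mul_left]
  refine tsum_congr (fun p => ?_)
  unfold degOneTerm
  by_cases hp : p.Prime ∧ p ∉ R
  · rw [if_pos hp, if_pos hp]
    have := h p hp.1 hp.2
    linear_combination ((p : ℝ) ^ (-s)) * this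
  · rw [if_neg hp, if_neg hp]
    simp

theorem abs_wSum_le (R : Finset ℕ) {s : ℝ} (hs : 1 < s) (w : ℕ → ℝ) (M : ℝ)
    (hw : ∀ p, |w p| ≤ M) : |wSum K R s w| ≤ M * degOneSum K R s := by
  unfold wSum degOneSum
  rw [← tsum_mul_left, ← Real.norm_eq_abs]
  have h1 : Summable fun p : ℕ => ‖w p * degOneTerm K R s p‖ :=
    (summable_wSum K R hs w M hw).norm
  refine (norm_tsum_le_tsum_norm h1).trans ?_
  refine Summable.tsum_le_tsum (fun p => ?_) h1 ((summable_degOneTerm K R hs).mul_left M)
  rw [Real.norm_eq_abs, abs_mul, abs_of_nonneg (degOneTerm_nonneg K R s p)]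
  exact mul_le_mul_of_nonneg_right (hw p) (degOneTerm_nonneg K R s p)

end Fermat.Agent.S48.Cheb
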